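import Fermat.Agent.LLv.CoreE

/-!
# Level lowering at `p`: the core theorem with an abstract modular unit of small slope
-/

set_option autoImplicit false
set_option linter.unusedSectionVars false
set_option maxHeartbeats 2000000

noncomputable section

open AlgebraicCurve Module IntermediateField ModularCurve HahnSeries

attribute [-instance] Fermat.Agent.X0Places.ffField Fermat.Agent.X0Places.ffAlgebra

namespace Fermat.Agent.LK3

open Fermat.Agent.BadRed Fermat.Agent.LLp Fermat.Agent.LLu Fermat.Agent.LLc Fermat.Agent.LLv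
open Fermat.Agent.FunField Fermat.Agent.FunField.PlaceLemmas Fermat.Agent.Deuring
open Fermat.Agent.Igusa Fermat.Agent.AtkinLehner Fermat.Agent.HeckeRed
open Fermat.Agent.ZLoc2 (IsCoef)

local notation "Qb" => AlgebraicClosure ℚ
local notation "GQ" => (AlgebraicClosure ℚ ≃ₐ[ℚ] AlgebraicClosure ℚ)

variable {κ : Type*} [Field κ] [IsAlgClosed κ]
  (A : ValuationSubring Qb) (π : A →+* κ) [IsLocalHom π] (hπ : Function.Surjective π)
  (harch : ArchA π)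
  (N p : ℕ) [hp : Fact p.Prime] [hN : NeZero N] [CharP κ p] (hpN : ¬ p ∣ N)
  (hg : genusFF κ (modularFunctionFieldFullC κ N) = genusFF Qb (modularFunctionFieldFullC Qb N))
  (d : CP.DecAut A π) (hd : CP.IsFrob d p)

/-- a unit of slope `s` at level `N p` -/
structure UnitDat (v0 : modularFunctionFieldFullC Qb (N * p)) (b₁ b₂ : modularFunctionFieldFullC κ N)
    (s : ℕ) : Prop where
  one_le : 1 ≤ s
  lt : s < p
  slope : (twoVal A π hπ harch N p hpN).SlopeAt (p : Qb) v0 (s : ℤ) b₁ b₂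
  rr : ∃ c : ℕ, v0 ∈ riemannRochSpace (c • (CP.pen A π hπ harch N p hpN hg d hd).E) ∧
    v0⁻¹ ∈ riemannRochSpace (c • (CP.pen A π hπ harch N p hpN hg d hd).E)

section

variable {A π hπ harch N p hpN hg d hd}
variable {v0 : modularFunctionFieldFullC Qb (N * p)} {b₁ b₂ : modularFunctionFieldFullC κ N} {s : ℕ}

/-- the orders at the nodes -/
theorem UnitDat.node (U : UnitDat A π hπ harch N p hpN hg d hd v0 b₁ b₂ s)
    (hA : A.LiesOverPrime p) (y : (CP.pen A π hπ harch N p hpN hg d hd).Pt) :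
    (∀ v, At (CP.pen A π hπ harch N p hpN hg d hd).toPencil
        ((CP.pen A π hπ harch N p hpN hg d hd).frPt y) v → 1 ≤ v.ord b₁ ∧ v.ord b₁ ≤ s) ∧
      (∀ v, At (CP.pen A π hπ harch N p hpN hg d hd).toPencil y.1 v →
        1 ≤ -v.ord b₂ ∧ -v.ord b₂ ≤ s) := by
  have i0 : NeZero (N * p) := ⟨mul_ne_zero (NeZero.ne N) hp.out.ne_zero⟩
  have H := CP.pen_hyp A π hπ harch N p hpN hg d hd
  have ht : ∀ n, (((CP.pen A π hπ harch N p hpN hg d hd).t :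
      modularFunctionFieldFullC (AlgebraicClosure ℚ) (N * p)) :
        LaurentSeries (AlgebraicClosure ℚ)).coeff n ∈ fix₀ (inertΓ A) := by
    rintro n _ ⟨s, hs, rfl⟩
    obtain ⟨g, hg'⟩ := exists_coefAut (AlgebraicClosure ℚ) (N * p)
      (s : AlgebraicClosure ℚ ≃+* AlgebraicClosure ℚ)
    have h1 := CP.smul_pen_t A π hπ harch N p hpN hg d hd hg'
    have h2 := congrArg (fun z => (z : LaurentSeries (AlgebraicClosure ℚ)).coeff n)
      ((hg' (CP.pen A π hπ harch N p hpN hg d hd).t).symm.trans (congrArg Subtype.val h1))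
    rw [coeffMap_coeff] at h2
    exact h2
  obtain ⟨c, h1, h2⟩ := U.rr
  exact LLn.slope_node (p := CP.pen A π hπ harch N p hpN hg d hd)
    (ratDatX A π hπ harch N p hpN (constForm A π hπ hp.out hA)
      (CP.pen A π hπ harch N p hpN hg d hd).toPencil H.hRR H.harch ht) H.hRR H.hRR₁
    H.hpos U.one_le U.slope h1 h2 y

/-- the order of the residue at affine places which are not nodes -/
theorem UnitDat.ord_eq_zero (U : UnitDat A π hπ harch N p hpN hg d hd v0 b₁ b₂ s)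
    {pl : (CP.pen A π hπ harch N p hpN hg d hd).Pt → Place κ (modularFunctionFieldFullC κ N)}
    (hpl : ∀ x, At (CP.pen A π hπ harch N p hpN hg d hd).toPencil
      ((CP.pen A π hπ harch N p hpN hg d hd).frPt x) (pl x))
    (v : Place κ (modularFunctionFieldFullC κ N)) (hv : 0 ≤ v.ord (HeckeRed.jF κ N))
    (hne : ∀ x, pl x ≠ v) : v.ord b₁ = 0 := by
  have i0 : NeZero (N * p) := ⟨mul_ne_zero (NeZero.ne N) hp.out.ne_zero⟩
  have H := CP.pen_hyp A π hπ harch N p hpN hg d hd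
  set P := CP.pen A π hπ harch N p hpN hg d hd with hP
  have hb0 : b₁ ≠ 0 := U.slope.1
  have hEb : P.Eb v = 0 := by
    rw [P.hEb, CP.pen_tb, ord_pow]
    have : 0 ≤ ((1 + p : ℕ) : ℤ) * v.ord (HeckeRed.jF κ N) :=
      mul_nonneg (Int.natCast_nonneg _) hv
    exact max_eq_left (by linarith)
  obtain ⟨c, h1, h2⟩ := U.rr
  obtain ⟨hr1, -, -⟩ := of_slopeAt (Nat.cast_ne_zero.mpr hp.out.ne_zero) U.slope
  have h3 := LLp.pole_bound₁ P H harch hpl h1 hb0 hr1 hne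
  have h4 := LLp.pole_bound₁ P H harch hpl h2 (inv_ne_zero hb0) (hr1.inv hb0) hne
  rw [hEb, mul_zero, neg_zero] at h3 h4
  rw [v.ord_inv] at h4
  omega

end

include hπ harch hpN hg hd in
/-- **The core theorem, with an abstract unit.** -/
theorem core₂ (hp2 : p ≠ 2) {ζ : A} (hζ : IsPrimitiveRoot (ζ : Qb) p)
    (hA : A.LiesOverPrime p)
    {J₀ : Subgroup GQ} {β : Qb} (K : KHyp A p J₀ (A.valuation ((ζ : Qb) - 1)) β)
    {De D : Divisor Qb (modularFunctionFieldFullC Qb (N * p))}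
    {fe f : modularFunctionFieldFullC Qb (N * p)}
    (hfe : IsDiv (p • De) fe) (hf : IsDiv (p • D) f)
    (hwe : Sg (SemilinearAut.ofAlgAut (ww Qb N p hpN) • De) De)
    (hw : Sg (SemilinearAut.ofAlgAut (ww Qb N p hpN) • D) D)
    (hαe : Lin (Degen.push (alpha1 Qb N p) (SemilinearAut.ofAlgAut (ww Qb N p hpN) • De)) 0)
    (hα : Lin (Degen.push (alpha1 Qb N p) (SemilinearAut.ofAlgAut (ww Qb N p hpN) • D)) 0)
    (hse : ∀ s ∈ A.inertiaSubgroupIn ℚ, ∀ k : ℕ, s (ζ : Qb) = (ζ : Qb) ^ k →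
      ∀ g : SemilinearAut Qb (modularFunctionFieldFullC Qb (N * p)),
        IsCoef g (s : Qb →+* Qb) → Lin (g • De) (k • De))
    (hs : ∀ s ∈ A.inertiaSubgroupIn ℚ, ∀ g : SemilinearAut Qb (modularFunctionFieldFullC Qb (N * p)),
      IsCoef g (s : Qb →+* Qb) → ∃ b : ℕ, Lin (g • D) (D + b • De))
    (hJ : ∀ s ∈ J₀, ∀ g : SemilinearAut Qb (modularFunctionFieldFullC Qb (N * p)),
      IsCoef g (s : Qb →+* Qb) → g • D = D)
    (hind : ∀ a b : ℤ, Lin (a • D) (b • De) → (p : ℤ) ∣ a)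
    {v0 : modularFunctionFieldFullC Qb (N * p)} {b₁ b₂ : modularFunctionFieldFullC κ N} {s : ℕ}
    (U : UnitDat A π hπ harch N p hpN hg d hd v0 b₁ b₂ s) :
    ∃ f' : modularFunctionFieldFullC Qb (N * p), IsDiv (p • D) f' ∧
      ∃ fb : modularFunctionFieldFullC κ N, fb ≠ 0 ∧
      (twoVal A π hπ harch N p hpN).V₁.ER f' fb ∧
      (∀ (c : κ) (b : modularFunctionFieldFullC κ N), fb ≠ c • b ^ p) ∧
      ∃ j₀ : ℤ, (∀ v : Place κ (modularFunctionFieldFullC κ N), 0 ≤ v.ord (HeckeRed.jF κ N) →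
          (p : ℤ) ∣ v.ord fb - j₀ * v.ord b₁) ∧
        ∀ v : Place κ (modularFunctionFieldFullC κ N), v.ord (HeckeRed.jF κ N) < 0 →
          (p : ℤ) ∣ v.ord fb := by
  have i0 : NeZero (N * p) := ⟨mul_ne_zero (NeZero.ne N) hp.out.ne_zero⟩
  have hp0 : (p : Qb) ≠ 0 := Nat.cast_ne_zero.mpr hp.out.ne_zero
  have H := CP.pen_hyp A π hπ harch N p hpN hg d hd
  -- the data
  let Λ : LamData (twoVal A π hπ harch N p hpN).toRData p :=
    lamData (𝔇 := (twoVal A π hπ harch N p hpN).toRData) hp.out inferInstance hζ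
  have eΛ : ((Λ.lam : A) : Qb) = (ζ : Qb) - 1 := by
    show (((ζ - 1 : A)) : Qb) = _
    push_cast
    rfl
  have K' : KHyp A p J₀ (A.valuation ((Λ.lam : A) : Qb)) β := by rw [eΛ]; exact K
  obtain ⟨s₀, hs₀, hs₀ζ⟩ := exists_inertia_ne hp.out hp2 hA hζ
  let R := ratDataX A π hπ harch N p hpN hg d hd (Λ := Λ) K'
  let ID : InData R := inDataX A π hπ harch N p hpN hg d hd hζ K' hs₀ hs₀ζ
  have hJ' : ∀ s ∈ R.J, s • D = D := by
    rintro s ⟨_, ⟨s', hs', rfl⟩, hg'⟩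
    exact hJ s' hs' s hg'
  obtain ⟨f₂, hf₂, hf₂J⟩ := R.rf (p • D) f hf (fun s hs => by
    have h1 : s • (p • D) = p • (s • D) :=
      map_nsmul (DistribSMul.toAddMonoidHom (Divisor Qb _) s) p D
    rw [h1, hJ' s hs])
  have hse' : ∀ s ∈ R.I, Lin (s • De) (ID.χ s • De) := by
    rintro s ⟨_, ⟨s', hs', rfl⟩, hg'⟩
    have h1 := cycExp_spec hζ s
    rw [baseAut_of_coef hg'] at h1
    exact hse s' hs' _ h1 s hg'
  have hs' : ∀ s ∈ R.I, ∃ b : ℕ, Lin (s • D) (D + b • De) := by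
    rintro s ⟨_, ⟨s', hs', rfl⟩, hg'⟩
    exact hs s' hs' s hg'
  have hUe : Sg ((uData A π hπ harch N p hpN).dU De) De := sg_dUU N p hpN hαe hwe
  have hU : Sg ((uData A π hπ harch N p hpN).dU D) D := sg_dUU N p hpN hα hw
  set P := CP.pen A π hπ harch N p hpN hg d hd with hP
  obtain ⟨hfin, -, -⟩ := P.structure_fibre H.hRR H.hRR₁ H.hpos
  have i3 := Fintype.ofFinite P.Pt
  choose pl₁ hpl₁ using fun x : P.Pt => exists_at (p := P.toPencil) H.hpos (P.frPt x)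
  choose pl₂ hpl₂ using fun x : P.Pt => exists_at (p := P.toPencil) H.hpos x.1
  have key : ∀ (u : modularFunctionFieldFullC Qb (N * p)) (b₁ b₂ : modularFunctionFieldFullC κ N)
      (s : ℤ) (c : ℕ), (twoVal A π hπ harch N p hpN).SlopeAt (p : Qb) u s b₁ b₂ →
      u⁻¹ ∈ riemannRochSpace (c • P.E) → (∀ x, ¬ (p : ℤ) ∣ (pl₁ x).ord b₁) →
      (∀ x, ¬ (p : ℤ) ∣ (pl₂ x).ord b₂) →
      0 ≤ ∑ x, (pl₁ x).ord b₁ + ∑ x, (pl₂ x).ord b₂ → ¬ (p : ℤ) ∣ -s →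
      ∃ a₁ : modularFunctionFieldFullC κ N, a₁ ≠ 0 ∧
        (twoVal A π hπ harch N p hpN).V₁.HasRes f₂ a₁ ∧
        (∀ (c : κ) (b : modularFunctionFieldFullC κ N), a₁ ≠ c • b ^ p) ∧
        (∀ v, (∀ x, pl₁ x ≠ v) → (p : ℤ) ∣ v.ord a₁) ∧
        ∃ j < p, ∀ x, (p : ℤ) ∣ (pl₁ x).ord a₁ - j * (pl₁ x).ord b₁ := by
    intro u b₁ b₂ s c hsl hu hδ₁ hδ₂ hΔ hns
    obtain ⟨hr₁, hr₂, υ₁, υ₂, hυ₁, hυ₂, hυ⟩ := of_slopeAt hp0 hsl
    exact main_abs ID harch hp.out H (hr2_conc N p K') hpl₁ hpl₂ hfe hUe hwe hse' hf₂ hf₂J hU hw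
      hs' hind hsl.ne_zero hu hsl.1 hsl.2.1 hr₁ hr₂ hδ₁ hδ₂ hΔ hυ₁ hυ₂ hns hυ
  -- orders at the nodes
  have o₁ : ∀ x, 1 ≤ (pl₁ x).ord b₁ ∧ (pl₁ x).ord b₁ ≤ s := fun x => (U.node hA x).1 _ (hpl₁ x)
  have o₂ : ∀ x, 1 ≤ -(pl₂ x).ord b₂ ∧ -(pl₂ x).ord b₂ ≤ s := fun x => (U.node hA x).2 _ (hpl₂ x)
  have hsp := U.lt
  have hs1 := U.one_le
  have nd : ∀ z : ℤ, 1 ≤ z ∧ z ≤ s → ¬ (p : ℤ) ∣ z := by
    rintro z ⟨h1, h2⟩ h3
    have := Int.le_of_dvd (by omega) h3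
    omega
  have hsl := U.slope
  obtain ⟨c, hc1, hc2⟩ := U.rr
  -- the conclusion
  have fin : ∀ a₁ : modularFunctionFieldFullC κ N, a₁ ≠ 0 →
        (twoVal A π hπ harch N p hpN).V₁.HasRes f₂ a₁ →
        (∀ (c : κ) (b : modularFunctionFieldFullC κ N), a₁ ≠ c • b ^ p) →
        (∀ v, (∀ x, pl₁ x ≠ v) → (p : ℤ) ∣ v.ord a₁) → ∀ j₀ : ℤ,
        (∀ x, (p : ℤ) ∣ (pl₁ x).ord a₁ - j₀ * (pl₁ x).ord b₁) →
        ∃ f' : modularFunctionFieldFullC Qb (N * p), IsDiv (p • D) f' ∧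
      ∃ fb : modularFunctionFieldFullC κ N, fb ≠ 0 ∧
      (twoVal A π hπ harch N p hpN).V₁.ER f' fb ∧
      (∀ (c : κ) (b : modularFunctionFieldFullC κ N), fb ≠ c • b ^ p) ∧
      ∃ j₀ : ℤ, (∀ v : Place κ (modularFunctionFieldFullC κ N), 0 ≤ v.ord (HeckeRed.jF κ N) →
          (p : ℤ) ∣ v.ord fb - j₀ * v.ord b₁) ∧
        ∀ v : Place κ (modularFunctionFieldFullC κ N), v.ord (HeckeRed.jF κ N) < 0 →
          (p : ℤ) ∣ v.ord fb := by
    rintro a₁ ha₁ ⟨c, hc, hcO, hcr⟩ hnp haway j₀ hj₀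
    refine ⟨c • f₂, ?_, a₁, ha₁, ⟨hcO, hcr⟩, hnp, j₀, fun v hv => ?_, fun v hv => haway v ?_⟩
    · have h1 := (IsDiv.const (F := modularFunctionFieldFullC Qb (N * p)) hc).mul hf₂
      rwa [zero_add, ← Algebra.smul_def] at h1
    · by_cases hne : ∀ x, pl₁ x ≠ v
      · rw [U.ord_eq_zero hpl₁ v hv hne, mul_zero, sub_zero]
        exact haway v hne
      · push Not at hne
        obtain ⟨x, rfl⟩ := hne
        exact hj₀ x
    · rintro x rfl
      have h1 := (hpl₁ x).Eb_eq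
      rw [P.hEb, CP.pen_tb, ord_pow] at h1
      have h2 : ((1 + p : ℕ) : ℤ) * (pl₁ x).ord (HeckeRed.jF κ N) < 0 :=
        mul_neg_of_pos_of_neg (by positivity) hv
      have h3 := le_max_right 0 (-(((1 + p : ℕ) : ℤ) * (pl₁ x).ord (HeckeRed.jF κ N)))
      omega
  by_cases hsum : 0 ≤ ∑ x, (pl₁ x).ord b₁ + ∑ x, (pl₂ x).ord b₂
  · obtain ⟨a₁, ha₁, hr, hnp, haway, j, -, hj⟩ := key _ b₁ b₂ s c hsl hc2
      (fun x => nd _ (o₁ x)) (fun x => by rw [← dvd_neg]; exact nd _ (o₂ x)) hsum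
      (by rw [dvd_neg]; exact nd s ⟨by exact_mod_cast hs1, le_refl _⟩)
    exact fin a₁ ha₁ hr hnp haway j hj
  · have hsum' : 0 ≤ ∑ x, (pl₁ x).ord b₁⁻¹ + ∑ x, (pl₂ x).ord b₂⁻¹ := by
      simp only [Place.ord_inv, Finset.sum_neg_distrib] at hsum ⊢
      omega
    obtain ⟨a₁, ha₁, hr, hnp, haway, j, -, hj⟩ := key _ b₁⁻¹ b₂⁻¹ (-s) c hsl.inv
      (by rw [inv_inv]; exact hc1)
      (fun x => by rw [Place.ord_inv, dvd_neg]; exact nd _ (o₁ x))
      (fun x => by rw [Place.ord_inv]; exact nd _ (o₂ x)) hsum'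
      (by rw [neg_neg]; exact nd s ⟨by exact_mod_cast hs1, le_refl _⟩)
    refine fin a₁ ha₁ hr hnp haway (-j) fun x => ?_
    have := hj x
    rw [Place.ord_inv] at this
    have e : (pl₁ x).ord a₁ - -(j : ℤ) * (pl₁ x).ord b₁ =
      (pl₁ x).ord a₁ - j * -(pl₁ x).ord b₁ := by ring
    rw [e]
    exact this

end Fermat.Agent.LK3
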